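/-
Programme MS (S12), area GLUE (helper4): **canonicity of the cofixed line at the small multiplicative
primes (base case of Route B).**

`W / ℤ`, `E = W / ℚ̄`, `A` a place of `ℚ̄` over a prime `ℓ`, `σ` a Frobenius element at `A`.

* `nonsingular_res_iff` : the residue-field formulation of nonsingular reduction (as in
  `InZeroComponentAt`) in terms of the valuations of the partial derivatives;
* `count_fixed_zero` : a set of `σ`-fixed `n`-torsion points (`ℓ ∤ n`) lying in the zero component at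
  `A` has at most `2ℓ - 1` elements, as soon as some `n`-torsion point is NOT in the zero component
  (`NodeCount4.finite_ncard_le_node`);
* `canonical_of_cofixed` : if `N ⊆ E[p]` is a `G_ℚ`-stable subgroup with at most `p` elements such
  that `(σ - 1) E[p] ⊆ N` for all `σ ∈ G_ℚ`, `ℓ ≠ p` is a multiplicative prime with `2ℓ - 1 < p`, then
  `N` lies in the zero component at every place over `ℓ` (i.e. `N = Can_A(p)`).
-/
import Mathlib
import Fermat.Agent.MS.GLUE.NodeCount4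
import Fermat.Agent.MS.LOC.CanFinal5
import Fermat.Agent.MZ.MOD.ZeroCompGal5
import Fermat.Agent.TW.GRP.PlaceConj3
import Fermat.Agent.S51.GaloisDescent
import Fermat.Agent.S05.Inertia
import Fermat.Agent.ES.J.CycloChar8
import Fermat.Agent.Lib.FrobeniusExists

set_option autoImplicit false
set_option linter.unusedSectionVars false
set_option linter.unusedVariables false
set_option linter.style.longLine false

open WeierstrassCurve WeierstrassCurve.Affine

namespace Fermat.Agent.MS.GLUE.BaseCan4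

open Fermat.Agent.S05 Fermat.Agent.S13.Closeness Fermat.Agent.MS.END.FrobCount8
open Fermat.Agent.MS.GLUE.NodeCount4

local notation "Qb" => AlgebraicClosure ℚ
local notation "GQ" => (AlgebraicClosure ℚ ≃ₐ[ℚ] AlgebraicClosure ℚ)

section General

variable (W : WeierstrassCurve ℤ)

/-- the curve over `ℚ̄`. -/
noncomputable abbrev EQ : WeierstrassCurve Qb := ((W.map (Int.castRingHom ℚ))⁄Qb)

theorem a₁_EQ : (EQ W).a₁ = ((W.a₁ : ℤ) : Qb) := by
  show algebraMap ℚ Qb ((Int.castRingHom ℚ) W.a₁) = _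
  simp
theorem a₂_EQ : (EQ W).a₂ = ((W.a₂ : ℤ) : Qb) := by
  show algebraMap ℚ Qb ((Int.castRingHom ℚ) W.a₂) = _
  simp
theorem a₃_EQ : (EQ W).a₃ = ((W.a₃ : ℤ) : Qb) := by
  show algebraMap ℚ Qb ((Int.castRingHom ℚ) W.a₃) = _
  simp
theorem a₄_EQ : (EQ W).a₄ = ((W.a₄ : ℤ) : Qb) := by
  show algebraMap ℚ Qb ((Int.castRingHom ℚ) W.a₄) = _
  simp
theorem a₆_EQ : (EQ W).a₆ = ((W.a₆ : ℤ) : Qb) := by
  show algebraMap ℚ Qb ((Int.castRingHom ℚ) W.a₆) = _
  simp

variable {ℓ : ℕ} (hℓ : ℓ.Prime) {A : ValuationSubring Qb} (hA : A.LiesOverPrime ℓ)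

theorem integralCoeffs (A : ValuationSubring Qb) :
    Kernel.IntegralCoeffs A.valuation (EQ W).toAffine := by
  refine ⟨?_, ?_, ?_, ?_, ?_⟩
  · show A.valuation (EQ W).a₁ ≤ 1
    rw [a₁_EQ]; exact Inertia.valuation_intCast_le_one _
  · show A.valuation (EQ W).a₂ ≤ 1
    rw [a₂_EQ]; exact Inertia.valuation_intCast_le_one _
  · show A.valuation (EQ W).a₃ ≤ 1
    rw [a₃_EQ]; exact Inertia.valuation_intCast_le_one _
  · show A.valuation (EQ W).a₄ ≤ 1
    rw [a₄_EQ]; exact Inertia.valuation_intCast_le_one _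
  · show A.valuation (EQ W).a₆ ≤ 1
    rw [a₆_EQ]; exact Inertia.valuation_intCast_le_one _

include hℓ hA in
/-- Fermat's little theorem, in `A`. -/
theorem valuation_int_pow_sub (m : ℤ) : A.valuation (((m : ℤ) : Qb) ^ ℓ - (m : Qb)) < 1 := by
  have hdvd : (ℓ : ℤ) ∣ m ^ ℓ - m := by
    have : Fact ℓ.Prime := ⟨hℓ⟩
    have h1 : ((m ^ ℓ - m : ℤ) : ZMod ℓ) = 0 := by
      push_cast
      rw [ZMod.pow_card, sub_self]
    exact (ZMod.intCast_zmod_eq_zero_iff_dvd _ _).mp h1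
  have := (Inertia.valuation_intCast_lt_one_iff hℓ hA (m ^ ℓ - m)).mpr hdvd
  push_cast at this
  exact this

theorem resL_intCast (A : ValuationSubring Qb) (m : ℤ) :
    resL A ((m : ℤ) : Qb) = ((m : ℤ) : ResF A) := by
  have hm : ((m : ℤ) : Qb) ∈ A := intCast_mem A m
  rw [resL_of_mem A hm]
  have : (⟨((m : ℤ) : Qb), hm⟩ : ↥A) = ((m : ℤ) : ↥A) := Subtype.ext (by simp)
  rw [this, map_intCast]

theorem valuation_eq_one_iff_resL_ne_zero (A : ValuationSubring Qb) {z : Qb} (hz : z ∈ A) :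
    A.valuation z = 1 ↔ resL A z ≠ 0 := by
  have hle : A.valuation z ≤ 1 := (A.valuation_le_one_iff _).2 hz
  rw [Ne, resL_eq_zero_iff hz, not_lt]
  exact ⟨fun h => h.ge, fun h => le_antisymm hle h⟩

/-- **nonsingular reduction, in terms of valuations.** -/
theorem nonsingular_res_iff (A : ValuationSubring Qb) {x y : Qb} (hx : x ∈ A) (hy : y ∈ A)
    (h : (EQ W).toAffine.Equation x y) :
    (W.map (Int.castRingHom (IsLocalRing.ResidueField A))).toAffine.Nonsingular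
        (IsLocalRing.residue A ⟨x, hx⟩) (IsLocalRing.residue A ⟨y, hy⟩) ↔
      A.valuation (WX (EQ W).toAffine x y) = 1 ∨ A.valuation (WY (EQ W).toAffine x y) = 1 := by
  have hW := integralCoeffs W A
  have e1 : resL A (EQ W).toAffine.a₁ = ((W.a₁ : ℤ) : ResF A) := by
    show resL A (EQ W).a₁ = _
    rw [a₁_EQ, resL_intCast]
  have e2 : resL A (EQ W).toAffine.a₂ = ((W.a₂ : ℤ) : ResF A) := by
    show resL A (EQ W).a₂ = _
    rw [a₂_EQ, resL_intCast]
  have e3 : resL A (EQ W).toAffine.a₃ = ((W.a₃ : ℤ) : ResF A) := by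
    show resL A (EQ W).a₃ = _
    rw [a₃_EQ, resL_intCast]
  have e4 : resL A (EQ W).toAffine.a₄ = ((W.a₄ : ℤ) : ResF A) := by
    show resL A (EQ W).a₄ = _
    rw [a₄_EQ, resL_intCast]
  have e6 : resL A (EQ W).toAffine.a₆ = ((W.a₆ : ℤ) : ResF A) := by
    show resL A (EQ W).a₆ = _
    rw [a₆_EQ, resL_intCast]
  have hE := resL_equation hW hx hy h
  have hX := resL_WX hW hx hy
  have hY := resL_WY hW hx hy
  rw [e1, e2, e3, e4, e6] at hE
  rw [e1, e2, e4] at hX
  rw [e1, e3] at hY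
  rw [valuation_eq_one_iff_resL_ne_zero A (mem_WX hW hx hy),
    valuation_eq_one_iff_resL_ne_zero A (mem_WY hW hx hy), hX, hY, nonsingular_iff', equation_iff,
    ← resL_of_mem A hx, ← resL_of_mem A hy]
  simp only [map_a₁, map_a₂, map_a₃, map_a₄, map_a₆, eq_intCast]
  constructor
  · rintro ⟨-, h1 | h1⟩
    · left
      intro h0
      apply h1
      linear_combination h0
    · right
      exact h1
  · rintro (h1 | h1)
    · refine ⟨hE, Or.inl ?_⟩
      intro h0
      apply h1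
      linear_combination h0
    · exact ⟨hE, Or.inr h1⟩

include hℓ hA in
/-- **the refined Frobenius count in the zero component**: a set of `σ`-fixed `n`-torsion points
(`ℓ ∤ n`) of the zero component at `A` has at most `2ℓ - 1` elements, if some `n`-torsion point is not
in the zero component. -/
theorem count_fixed_zero {σ : GQ} (hσ : A.IsFrobeniusAt σ ℓ) {n : ℕ} (hn : ¬ ℓ ∣ n)
    (S : Set ((W.map (Int.castRingHom ℚ))⁄Qb).Point)
    (hS : ∀ Q ∈ S, n • Q = 0 ∧ W.InZeroComponentAt A Q ∧ σ • Q = Q)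
    (Q₀ : ((W.map (Int.castRingHom ℚ))⁄Qb).Point) (hQ₀ : n • Q₀ = 0)
    (hQ₀z : ¬ W.InZeroComponentAt A Q₀) : S.Finite ∧ S.ncard ≤ 2 * ℓ - 1 := by
  have hW := integralCoeffs W A
  have hvn : A.valuation ((n : ℕ) : Qb) = 1 := Inertia.valuation_natCast_eq_one hℓ hA hn
  -- integrality of torsion points
  have hint : ∀ (x y : Qb) (h : (EQ W).toAffine.Nonsingular x y),
      n • (Point.some x y h : (EQ W).toAffine.Point) = 0 → x ∈ A ∧ y ∈ A := by
    intro x y h hQ
    have hx : A.valuation x ≤ 1 := Kernel.x_integral_of_nsmul_eq_zero hW h hvn hQ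
    have hy : A.valuation y ≤ 1 := vy_le_one hW h.1 hx
    exact ⟨(A.valuation_le_one_iff _).1 hx, (A.valuation_le_one_iff _).1 hy⟩
  -- the singular point
  rcases Q₀ with _ | ⟨x₀, y₀, h₀⟩
  · exact absurd (Or.inl rfl) hQ₀z
  obtain ⟨hx₀, hy₀⟩ := hint x₀ y₀ h₀ hQ₀
  have hnot : ¬ (A.valuation (WX (EQ W).toAffine x₀ y₀) = 1 ∨
      A.valuation (WY (EQ W).toAffine x₀ y₀) = 1) := by
    intro hcon
    apply hQ₀z
    refine Or.inr ⟨x₀, y₀, h₀, rfl, Or.inr ⟨hx₀, hy₀, ?_⟩⟩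
    exact (nonsingular_res_iff W A hx₀ hy₀ h₀.1).mpr hcon
  rw [not_or] at hnot
  have hsX : A.valuation (WX (EQ W).toAffine x₀ y₀) < 1 :=
    lt_of_le_of_ne ((A.valuation_le_one_iff _).2 (mem_WX hW hx₀ hy₀)) hnot.1
  have hsY : A.valuation (WY (EQ W).toAffine x₀ y₀) < 1 :=
    lt_of_le_of_ne ((A.valuation_le_one_iff _).2 (mem_WY hW hx₀ hy₀)) hnot.2
  refine finite_ncard_le_node (W := (EQ W).toAffine) hW hvn hℓ (Inertia.valuation_prime_lt_one hA)
    ?_ ?_ ?_ ?_ ?_ hx₀ hy₀ h₀.1 hsX hsY S (fun Q hQ => (hS Q hQ).1) ?_ ?_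
  · show A.valuation ((EQ W).a₁ ^ ℓ - (EQ W).a₁) < 1
    rw [a₁_EQ]; exact valuation_int_pow_sub hℓ hA _
  · show A.valuation ((EQ W).a₂ ^ ℓ - (EQ W).a₂) < 1
    rw [a₂_EQ]; exact valuation_int_pow_sub hℓ hA _
  · show A.valuation ((EQ W).a₃ ^ ℓ - (EQ W).a₃) < 1
    rw [a₃_EQ]; exact valuation_int_pow_sub hℓ hA _
  · show A.valuation ((EQ W).a₄ ^ ℓ - (EQ W).a₄) < 1
    rw [a₄_EQ]; exact valuation_int_pow_sub hℓ hA _
  · show A.valuation ((EQ W).a₆ ^ ℓ - (EQ W).a₆) < 1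
    rw [a₆_EQ]; exact valuation_int_pow_sub hℓ hA _
  · -- nonsingular reduction
    intro x y h hQ
    obtain ⟨h1, h2, -⟩ := hS _ hQ
    obtain ⟨mx, my⟩ := hint x y h h1
    rcases h2 with h0 | ⟨x', y', h', heq, hxy⟩
    · exact absurd h0 (by simp)
    · have hinj := Point.some.inj heq
      obtain ⟨rfl, rfl⟩ := hinj
      rcases hxy with hxn | ⟨hx, hy, hns⟩
      · exact absurd mx hxn
      · exact (nonsingular_res_iff W A hx hy h.1).mp hns
  · -- Frobenius
    intro x y h hQ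
    obtain ⟨h1, -, h3⟩ := hS _ hQ
    obtain ⟨mx, my⟩ := hint x y h h1
    obtain ⟨h', he⟩ := Fermat.Agent.S51.Galois.smul_some (W.map (Int.castRingHom ℚ)) σ h
    have hfix := Point.some.inj (he.symm.trans h3)
    have fx := Fermat.Agent.ES.J.CycloChar8.frob_apply_sub_pow_mem_nonunits hσ mx
    have fy := Fermat.Agent.ES.J.CycloChar8.frob_apply_sub_pow_mem_nonunits hσ my
    rw [ValuationSubring.mem_nonunits_iff] at fx fy
    rw [hfix.1] at fx
    rw [hfix.2] at fy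
    constructor
    · have : x ^ ℓ - x = -(x - x ^ ℓ) := by ring
      rw [this, Valuation.map_neg]
      exact fx
    · have : y ^ ℓ - y = -(y - y ^ ℓ) := by ring
      rw [this, Valuation.map_neg]
      exact fy

end General

/-! ### canonicity of a cofixed line at a small multiplicative prime -/

section Canonical

open scoped Pointwise

variable (W : WeierstrassCurve ℤ) (hΔ0 : W.Δ ≠ 0) {ℓ p : ℕ} (hℓ : ℓ.Prime) (hp : p.Prime)
  (h6 : Nat.Coprime p 6) (hℓp : ℓ ≠ p) (hΔ : (ℓ : ℤ) ∣ W.Δ) (hc4 : ¬ (ℓ : ℤ) ∣ W.c₄)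
  (hsmall : 2 * ℓ - 1 < p)
  (N : AddSubgroup ((W.map (Int.castRingHom ℚ))⁄Qb).Point) [Finite N]
  (hNtors : ∀ Q ∈ N, p • Q = 0) (hNcard : Nat.card N ≤ p)
  (hNstable : ∀ σ : GQ, ∀ Q ∈ N, σ • Q ∈ N)
  (hcof : ∀ σ : GQ, ∀ Q : ((W.map (Int.castRingHom ℚ))⁄Qb).Point, p • Q = 0 → σ • Q - Q ∈ N)

include hΔ0 hℓ hp h6 hℓp hΔ hc4 hsmall hNtors hNcard hcof in
/-- the statement at a place carrying a Frobenius element. -/
theorem canonical_of_cofixed_frob {A : ValuationSubring Qb} (hA : A.LiesOverPrime ℓ) {σ : GQ}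
    (hσ : A.IsFrobeniusAt σ ℓ) : ∀ Q ∈ N, W.InZeroComponentAt A Q := by
  by_contra hcon
  push Not at hcon
  obtain ⟨Q₁, hQ₁N, hQ₁z⟩ := hcon
  have : NeZero p := ⟨hp.ne_zero⟩
  have hℓp' : ¬ ℓ ∣ p := fun hd => hℓp ((Nat.prime_dvd_prime_iff_eq hℓ hp).mp hd)
  obtain ⟨H, hHmem, hHcard, -, hHstable⟩ :=
    Fermat.Agent.MS.LOC.CanFinal5.exists_can hℓ W hΔ0 hΔ hc4 A hA p h6 hℓp'
  have hσD : σ ∈ A.decompositionSubgroup ℚ := hσ.mem_decompositionSubgroup
  -- `σ` fixes the canonical subgroup pointwise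
  have hfix : ∀ R ∈ H, σ • R = R := by
    intro R hR
    by_contra hne
    set d := σ • R - R with hd
    have hd0 : d ≠ 0 := fun h0 => hne (sub_eq_zero.mp h0)
    have hdN : d ∈ N := hcof σ R ((hHmem R).1 hR).1
    have hdH : d ∈ H := H.sub_mem (hHstable σ hσD R hR) hR
    have hpd : p • d = 0 := hNtors d hdN
    have hord : addOrderOf d = p := by
      have : Fact p.Prime := ⟨hp⟩
      exact addOrderOf_eq_prime hpd hd0
    have hle : AddSubgroup.zmultiples d ≤ N := by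
      rw [AddSubgroup.zmultiples_le]
      exact hdN
    have heq : AddSubgroup.zmultiples d = N := by
      refine AddSubgroup.eq_of_le_of_card_ge hle ?_
      rw [Nat.card_zmultiples, hord]
      exact hNcard
    have hQ₁H : Q₁ ∈ H := by
      have h1 : Q₁ ∈ AddSubgroup.zmultiples d := by rw [heq]; exact hQ₁N
      have h2 : AddSubgroup.zmultiples d ≤ H := by
        rw [AddSubgroup.zmultiples_le]
        exact hdH
      exact h2 h1
    exact hQ₁z ((hHmem Q₁).1 hQ₁H).2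
  -- the count
  have hS : ∀ Q ∈ (H : Set ((W.map (Int.castRingHom ℚ))⁄Qb).Point),
      p • Q = 0 ∧ W.InZeroComponentAt A Q ∧ σ • Q = Q := by
    intro Q hQ
    exact ⟨((hHmem Q).1 hQ).1, ((hHmem Q).1 hQ).2, hfix Q hQ⟩
  obtain ⟨-, hle⟩ := count_fixed_zero W hℓ hA hσ hℓp' _ hS Q₁ (hNtors Q₁ hQ₁N) hQ₁z
  have hcard : (H : Set ((W.map (Int.castRingHom ℚ))⁄Qb).Point).ncard = p := by
    rw [← hHcard]
    exact (Nat.card_coe_set_eq _).symm
  omega

include hΔ0 hℓ hp h6 hℓp hΔ hc4 hsmall hNtors hNcard hNstable hcof in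
/-- **canonicity of a cofixed line at a small multiplicative prime**: a `G_ℚ`-stable subgroup
`N ⊆ E[p]` with at most `p` elements containing `(σ - 1) E[p]` for all `σ` lies in the zero component
at every place over a multiplicative prime `ℓ ≠ p` with `2ℓ - 1 < p`. -/
theorem canonical_of_cofixed (A : ValuationSubring Qb) (hA : A.LiesOverPrime ℓ) :
    ∀ Q ∈ N, W.InZeroComponentAt A Q := by
  obtain ⟨A₀, σ₀, hA₀, hσ₀⟩ := Fermat.Agent.Lib.exists_isFrobeniusAt ℓ hℓ
  obtain ⟨g, rfl⟩ := Fermat.Agent.TW.GRP.PlaceConj3.exists_smul_eq hℓ hA₀ hA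
  intro Q hQ
  have h1 := canonical_of_cofixed_frob W hΔ0 hℓ hp h6 hℓp hΔ hc4 hsmall N hNtors hNcard hcof hA₀ hσ₀
    (g⁻¹ • Q) (hNstable g⁻¹ Q hQ)
  have h2 := (Fermat.Agent.MZ.MOD.ZeroCompGal5.inZeroComponentAt_smul_smul_iff W A₀ g (g⁻¹ • Q)).mpr h1
  rwa [smul_inv_smul] at h2

end Canonical

end Fermat.Agent.MS.GLUE.BaseCan4
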