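/-
Programme MS (S12), area GLUE (helper4): **the points of the Frey curve and of its integral model.**

`P.freyCurve : WeierstrassCurve ℚ` and `P.freyCurveInt.map (Int.castRingHom ℚ)` are equal
(`FreyInt2.map_freyCurveInt`), but only propositionally.  `toInt P` is the resulting identification of
the groups of `ℚ̄`-points; it is `G_ℚ`-equivariant, preserves coordinates, orders and torsion, and
`InZeroFrey P A Q` transports `InZeroComponentAt` to the points of `P.freyCurve⁄ℚ̄`.
-/
import Mathlib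
import Fermat.Agent.MS.LOC.FreyInt2
import Fermat.Prelude.Def_EllipticCurve_ZeroComponentAt

set_option autoImplicit false
set_option linter.unusedSectionVars false
set_option linter.style.longLine false

open WeierstrassCurve WeierstrassCurve.Affine

namespace Fermat.Agent.MS.GLUE.FreyPts4

local notation "Qb" => AlgebraicClosure ℚ
local notation "GQ" => (AlgebraicClosure ℚ ≃ₐ[ℚ] AlgebraicClosure ℚ)

/-! ### transport of points along an equality of curves -/

section Congr

variable {E₁ E₂ : WeierstrassCurve ℚ}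

/-- transport of `ℚ̄`-points along an equality of curves over `ℚ`. -/
noncomputable def pointCongr (h : E₁ = E₂) : (E₁⁄Qb).Point ≃+ (E₂⁄Qb).Point :=
  h ▸ AddEquiv.refl _

theorem pointCongr_rfl (Q : (E₁⁄Qb).Point) : pointCongr (rfl : E₁ = E₁) Q = Q := rfl

theorem pointCongr_smul (h : E₁ = E₂) (σ : GQ) (Q : (E₁⁄Qb).Point) :
    pointCongr h (σ • Q) = σ • pointCongr h Q := by
  subst h
  rfl

theorem pointCongr_symm_smul (h : E₁ = E₂) (σ : GQ) (Q : (E₂⁄Qb).Point) :
    (pointCongr h).symm (σ • Q) = σ • (pointCongr h).symm Q := by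
  subst h
  rfl

theorem pointCongr_some (h : E₁ = E₂) {x y : Qb} (hxy : (E₁⁄Qb).toAffine.Nonsingular x y) :
    ∃ hxy' : (E₂⁄Qb).toAffine.Nonsingular x y,
      pointCongr h (Point.some x y hxy) = Point.some x y hxy' := by
  subst h
  exact ⟨hxy, rfl⟩

theorem pointCongr_nsmul (h : E₁ = E₂) (n : ℕ) (Q : (E₁⁄Qb).Point) :
    pointCongr h (n • Q) = n • pointCongr h Q := map_nsmul _ n Q

theorem pointCongr_eq_zero_iff (h : E₁ = E₂) (Q : (E₁⁄Qb).Point) :
    pointCongr h Q = 0 ↔ Q = 0 := map_eq_zero_iff _ (pointCongr h).injective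

theorem addOrderOf_pointCongr (h : E₁ = E₂) (Q : (E₁⁄Qb).Point) :
    addOrderOf (pointCongr h Q) = addOrderOf Q := AddEquiv.addOrderOf_eq (pointCongr h) Q

end Congr

/-! ### the Frey curve -/

section Frey

variable (P : FreyPackage)

/-- **the identification of the `ℚ̄`-points of `P.freyCurve` with those of the integral model.** -/
noncomputable def toInt :
    (P.freyCurve⁄Qb).Point ≃+ ((P.freyCurveInt.map (Int.castRingHom ℚ))⁄Qb).Point :=
  pointCongr (Fermat.Agent.MS.LOC.FreyInt2.map_freyCurveInt P).symm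

theorem toInt_smul (σ : GQ) (Q : (P.freyCurve⁄Qb).Point) : toInt P (σ • Q) = σ • toInt P Q :=
  pointCongr_smul _ σ Q

theorem toInt_symm_smul (σ : GQ) (Q : ((P.freyCurveInt.map (Int.castRingHom ℚ))⁄Qb).Point) :
    (toInt P).symm (σ • Q) = σ • (toInt P).symm Q :=
  pointCongr_symm_smul _ σ Q

theorem toInt_some {x y : Qb} (hxy : (P.freyCurve⁄Qb).toAffine.Nonsingular x y) :
    ∃ hxy' : ((P.freyCurveInt.map (Int.castRingHom ℚ))⁄Qb).toAffine.Nonsingular x y,
      toInt P (Point.some x y hxy) = Point.some x y hxy' :=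
  pointCongr_some _ hxy

theorem toInt_nsmul (n : ℕ) (Q : (P.freyCurve⁄Qb).Point) : toInt P (n • Q) = n • toInt P Q :=
  map_nsmul _ n Q

theorem toInt_eq_zero_iff (Q : (P.freyCurve⁄Qb).Point) : toInt P Q = 0 ↔ Q = 0 :=
  pointCongr_eq_zero_iff _ Q

theorem nsmul_toInt_eq_zero_iff (n : ℕ) (Q : (P.freyCurve⁄Qb).Point) :
    n • toInt P Q = 0 ↔ n • Q = 0 := by
  rw [← toInt_nsmul, toInt_eq_zero_iff]

theorem addOrderOf_toInt (Q : (P.freyCurve⁄Qb).Point) : addOrderOf (toInt P Q) = addOrderOf Q :=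
  addOrderOf_pointCongr _ Q

/-- **`Q ∈ E(ℚ̄)` lies in the zero component at `A`** (for the integral Frey model). -/
def InZeroFrey (A : ValuationSubring Qb) (Q : (P.freyCurve⁄Qb).Point) : Prop :=
  P.freyCurveInt.InZeroComponentAt A (toInt P Q)

theorem inZeroFrey_iff (A : ValuationSubring Qb) (Q : (P.freyCurve⁄Qb).Point) :
    InZeroFrey P A Q ↔ P.freyCurveInt.InZeroComponentAt A (toInt P Q) := Iff.rfl

end Frey

end Fermat.Agent.MS.GLUE.FreyPts4
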