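/-
Programme MS (S12), area GLUE (helper4): **small odd primes divide `abc`.**

If the Frey curve `E` has a Galois-stable cofixed line `N ⊂ E[p]` and `ℓ'` is an odd prime with
`2ℓ' + 1 < p`, then `ℓ' ∣ abc`: otherwise `ℓ'` is an odd prime of good reduction, `ℓ' ≠ p`, and the
end step `CofEnd8.cof_end` with `k = 1`, `K = N` gives `p ≤ 2ℓ' + 1`.  In particular for `p ≥ 17`
the primes `3`, `5`, `7` divide `abc`, so `E` has multiplicative reduction at `2` and `3` — the
hypothesis of the place-level core.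
-/
import Mathlib
import Fermat.Agent.MS.END.CofEnd8
import Fermat.Agent.S13.FreyTorsion
import Fermat.Prelude.Def_FLTPrelim_CofixedLine

set_option autoImplicit false
set_option linter.unusedSectionVars false
set_option linter.style.longLine false

open WeierstrassCurve WeierstrassCurve.Affine WeierstrassCurve.Affine.Point

namespace Fermat.Agent.MS.GLUE.SmallPrimes4

local notation "Qbar" => AlgebraicClosure ℚ
local notation "GQ" => (AlgebraicClosure ℚ ≃ₐ[ℚ] AlgebraicClosure ℚ)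

variable (P : FreyPackage)

/-- a proper `ZMod p`-submodule of `E[p]` has at most `p` elements. -/
theorem card_le_of_ne_top
    (N : Submodule (ZMod P.p) (Submodule.torsionBy ℤ (P.freyCurve⁄Qbar).Point P.p))
    (htop : N ≠ ⊤) : Nat.card ↥N ≤ P.p := by
  have hpp := P.pp
  have := Fermat.Agent.S13.FreyTorsion.finite_torsion P
  have hcard := Fermat.Agent.S13.FreyTorsion.card_torsion_le P
  have hdvd : Nat.card ↥N.toAddSubgroup ∣
      Nat.card (Submodule.torsionBy ℤ (P.freyCurve⁄Qbar).Point P.p) :=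
    AddSubgroup.card_addSubgroup_dvd_card N.toAddSubgroup
  have hNT : Nat.card ↥N.toAddSubgroup <
      Nat.card (Submodule.torsionBy ℤ (P.freyCurve⁄Qbar).Point P.p) := by
    refine lt_of_le_of_ne (Nat.le_of_dvd Nat.card_pos hdvd) ?_
    intro heq
    apply htop
    have h1 : N.toAddSubgroup = ⊤ := AddSubgroup.eq_top_of_card_eq _ heq
    rw [eq_top_iff]
    intro x _
    have : x ∈ N.toAddSubgroup := by rw [h1]; exact AddSubgroup.mem_top x
    exact this
  have hlt : Nat.card ↥N.toAddSubgroup < P.p ^ 2 := lt_of_lt_of_le hNT hcard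
  -- `#E[p]` is a power of `p`
  have hpow : ∃ i, Nat.card (Submodule.torsionBy ℤ (P.freyCurve⁄Qbar).Point P.p) = P.p ^ i := by
    have : Fact P.p.Prime := ⟨hpp⟩
    have hpg : IsPGroup P.p (Multiplicative (Submodule.torsionBy ℤ (P.freyCurve⁄Qbar).Point P.p)) := by
      intro x
      refine ⟨1, ?_⟩
      rw [pow_one]
      show Multiplicative.ofAdd (P.p • Multiplicative.toAdd x) = 1
      have : P.p • Multiplicative.toAdd x = 0 := by
        have h2 := (Multiplicative.toAdd x).2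
        rw [Submodule.mem_torsionBy_iff, natCast_zsmul] at h2
        exact Subtype.ext h2
      rw [this]
      rfl
    obtain ⟨i, hi⟩ := (IsPGroup.iff_card.mp hpg)
    exact ⟨i, by rw [← hi, Nat.card_congr Multiplicative.ofAdd.symm]⟩
  obtain ⟨i, hi⟩ := hpow
  rw [hi] at hdvd
  obtain ⟨j, hj, hj'⟩ := (Nat.dvd_prime_pow hpp).mp hdvd
  have hN' : Nat.card ↥N = Nat.card ↥N.toAddSubgroup := rfl
  rw [hN', hj']
  rw [hj'] at hlt
  have hj2 : j < 2 := (Nat.pow_lt_pow_iff_right hpp.one_lt).mp hlt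
  calc P.p ^ j ≤ P.p ^ 1 := Nat.pow_le_pow_right hpp.pos (by omega)
    _ = P.p := pow_one _

/-- **an odd prime `ℓ'` with `2ℓ' + 1 < p` divides `abc`** when the Frey curve has a Galois-stable
cofixed line. -/
theorem small_prime_dvd_abc
    (h : HasGaloisStableCofixedLine (K := Qbar) ℚ P.freyCurve P.p)
    {ℓ' : ℕ} (hℓ' : ℓ'.Prime) (hℓ2 : ℓ' ≠ 2) (hlt : 2 * ℓ' + 1 < P.p) :
    (ℓ' : ℤ) ∣ P.a * P.b * P.c := by
  by_contra hnd
  have hℓ'Z : Prime (ℓ' : ℤ) := Nat.prime_iff_prime_int.mp hℓ'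
  have ha : ¬ (ℓ' : ℤ) ∣ P.a := fun hd => hnd (Dvd.dvd.mul_right (Dvd.dvd.mul_right hd _) _)
  have hb : ¬ (ℓ' : ℤ) ∣ P.b := fun hd => hnd (Dvd.dvd.mul_right (Dvd.dvd.mul_left hd _) _)
  have hc : ¬ (ℓ' : ℤ) ∣ P.c := fun hd => hnd (Dvd.dvd.mul_left hd _)
  have hℓp : ℓ' ≠ P.p := by omega
  obtain ⟨N, hst, hbot, htop, hcof⟩ := h
  have := Fermat.Agent.S13.FreyTorsion.finite_torsion P
  set K : Set (P.freyCurve⁄Qbar).Point :=
    (fun x : Submodule.torsionBy ℤ (P.freyCurve⁄Qbar).Point P.p => (x : (P.freyCurve⁄Qbar).Point)) ''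
      (N : Set (Submodule.torsionBy ℤ (P.freyCurve⁄Qbar).Point P.p)) with hK
  have hKfin : K.Finite := (Set.toFinite _).image _
  have hKcard : K.ncard ≤ P.p ^ 1 := by
    rw [pow_one, hK, Set.ncard_image_of_injective _ Subtype.val_injective]
    have : (N : Set (Submodule.torsionBy ℤ (P.freyCurve⁄Qbar).Point P.p)).ncard = Nat.card ↥N :=
      (Nat.card_coe_set_eq _).symm
    rw [this]
    exact card_le_of_ne_top P N htop
  have hcof' : ∀ σ : GQ, ∀ Q : (P.freyCurve⁄Qbar).Point, P.p ^ 1 • Q = 0 → σ • Q - Q ∈ K := by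
    intro σ Q hQ
    rw [pow_one] at hQ
    have hQT : Q ∈ Submodule.torsionBy ℤ (P.freyCurve⁄Qbar).Point P.p := by
      rw [Submodule.mem_torsionBy_iff, natCast_zsmul]
      exact hQ
    refine ⟨σ • (⟨Q, hQT⟩ : Submodule.torsionBy ℤ (P.freyCurve⁄Qbar).Point P.p) - ⟨Q, hQT⟩,
      hcof σ ⟨Q, hQT⟩, rfl⟩
  have := Fermat.Agent.MS.END.CofEnd8.cof_end P hℓ' hℓ2 hℓp ha hb hc 1 K hKfin hKcard hcof'
  rw [pow_one] at this
  omega

/-- for `p ≥ 17`: `3 ∣ abc`. -/
theorem three_dvd_abc (hp : 17 ≤ P.p)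
    (h : HasGaloisStableCofixedLine (K := Qbar) ℚ P.freyCurve P.p) : (3 : ℤ) ∣ P.a * P.b * P.c := by
  have := small_prime_dvd_abc P h (ℓ' := 3) (by norm_num) (by norm_num) (by omega)
  exact_mod_cast this

/-- for `p ≥ 17`: `5 ∣ abc`. -/
theorem five_dvd_abc (hp : 17 ≤ P.p)
    (h : HasGaloisStableCofixedLine (K := Qbar) ℚ P.freyCurve P.p) : (5 : ℤ) ∣ P.a * P.b * P.c := by
  have := small_prime_dvd_abc P h (ℓ' := 5) (by norm_num) (by norm_num) (by omega)
  exact_mod_cast this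

/-- for `p ≥ 17`: `7 ∣ abc`. -/
theorem seven_dvd_abc (hp : 17 ≤ P.p)
    (h : HasGaloisStableCofixedLine (K := Qbar) ℚ P.freyCurve P.p) : (7 : ℤ) ∣ P.a * P.b * P.c := by
  have := small_prime_dvd_abc P h (ℓ' := 7) (by norm_num) (by norm_num) (by omega)
  exact_mod_cast this

end Fermat.Agent.MS.GLUE.SmallPrimes4
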