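/-
Programme MS (S12), area GLUE (helper4): **the cofixed line of the Frey curve is canonical at the small
multiplicative primes** (base case of Route B, complementary to the place-level core).

`P : FreyPackage`, `N ⊂ E[p]` a Galois-stable cofixed line.  For every prime `ℓ ≠ p` dividing `abc`
with `2ℓ - 1 < p` (in particular `ℓ = 2, 3, 5, 7` when `p ≥ 17`) and every place `A | ℓ`, all points of
`N` lie in the zero component at `A` (`base_canonical`).
-/
import Mathlib
import Fermat.Agent.MS.GLUE.BaseCan4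
import Fermat.Agent.MS.GLUE.FreyPts4
import Fermat.Agent.MS.GLUE.SmallPrimes4

set_option autoImplicit false
set_option linter.unusedSectionVars false
set_option linter.unusedVariables false
set_option linter.style.longLine false

open WeierstrassCurve WeierstrassCurve.Affine WeierstrassCurve.Affine.Point

namespace Fermat.Agent.MS.GLUE.FreyBase4

open Fermat.Agent.MS.GLUE.FreyPts4 Fermat.Agent.MS.LOC.FreyInt2

local notation "Qb" => AlgebraicClosure ℚ
local notation "GQ" => (AlgebraicClosure ℚ ≃ₐ[ℚ] AlgebraicClosure ℚ)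

variable (P : FreyPackage)

theorem coprime_six : Nat.Coprime P.p 6 := by
  have hpp := P.pp
  have h5 := P.hp5
  have h2 : Nat.Coprime P.p 2 := (Nat.coprime_primes hpp Nat.prime_two).2 (by omega)
  have h3 : Nat.Coprime P.p 3 := (Nat.coprime_primes hpp Nat.prime_three).2 (by omega)
  exact Nat.Coprime.mul_right h2 h3

/-- **the cofixed line is canonical at the small multiplicative primes.** -/
theorem base_canonical
    (N : Submodule (ZMod P.p) (Submodule.torsionBy ℤ (P.freyCurve⁄Qb).Point P.p))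
    (hst : IsGaloisStable ℚ N) (htop : N ≠ ⊤)
    (hcof : ∀ σ : GQ, ∀ x : Submodule.torsionBy ℤ (P.freyCurve⁄Qb).Point P.p, σ • x - x ∈ N)
    {ℓ : ℕ} (hℓ : ℓ.Prime) (hℓp : ℓ ≠ P.p) (hmult : (ℓ : ℤ) ∣ P.a * P.b * P.c)
    (hsmall : 2 * ℓ - 1 < P.p) (A : ValuationSubring Qb) (hA : A.LiesOverPrime ℓ) :
    ∀ x ∈ N, InZeroFrey P A (x : (P.freyCurve⁄Qb).Point) := by
  have hfinT := Fermat.Agent.S13.FreyTorsion.finite_torsion P
  -- the line as a subgroup of the points of the integral model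
  let ι : Submodule.torsionBy ℤ (P.freyCurve⁄Qb).Point P.p →+
      ((P.freyCurveInt.map (Int.castRingHom ℚ))⁄Qb).Point :=
    (toInt P).toAddMonoidHom.comp (Submodule.torsionBy ℤ (P.freyCurve⁄Qb).Point P.p).subtype.toAddMonoidHom
  have hι : ∀ x, ι x = toInt P (x : (P.freyCurve⁄Qb).Point) := fun x => rfl
  have hιinj : Function.Injective ι := by
    intro x y hxy
    rw [hι, hι] at hxy
    exact Subtype.ext ((toInt P).injective hxy)
  set N' : AddSubgroup ((P.freyCurveInt.map (Int.castRingHom ℚ))⁄Qb).Point :=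
    N.toAddSubgroup.map ι with hN'
  have hmemN' : ∀ x ∈ N, ι x ∈ N' := fun x hx => AddSubgroup.mem_map.2 ⟨x, hx, rfl⟩
  have hfinN' : Finite N' := by
    have : (N' : Set ((P.freyCurveInt.map (Int.castRingHom ℚ))⁄Qb).Point) =
        ι '' (N : Set (Submodule.torsionBy ℤ (P.freyCurve⁄Qb).Point P.p)) := rfl
    exact Set.finite_coe_iff.mpr (this ▸ (Set.toFinite _).image _)
  have hcardN' : Nat.card N' ≤ P.p := by
    have h1 : Nat.card N' = Nat.card ↥N.toAddSubgroup :=
      (Nat.card_congr (N.toAddSubgroup.equivMapOfInjective ι hιinj).toEquiv).symm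
    rw [h1]
    exact SmallPrimes4.card_le_of_ne_top P N htop
  have htorsN' : ∀ Q ∈ N', P.p • Q = 0 := by
    intro Q hQ
    obtain ⟨x, -, rfl⟩ := AddSubgroup.mem_map.1 hQ
    rw [hι, ← toInt_nsmul]
    have h2 := x.2
    rw [Submodule.mem_torsionBy_iff, natCast_zsmul] at h2
    rw [h2, _root_.map_zero]
  have hstN' : ∀ σ : GQ, ∀ Q ∈ N', σ • Q ∈ N' := by
    intro σ Q hQ
    obtain ⟨x, hx, rfl⟩ := AddSubgroup.mem_map.1 hQ
    have : σ • ι x = ι (σ • x) := by
      rw [hι, hι, ← toInt_smul]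
      rfl
    rw [this]
    exact hmemN' _ (hst σ x hx)
  have hcofN' : ∀ σ : GQ, ∀ Q : ((P.freyCurveInt.map (Int.castRingHom ℚ))⁄Qb).Point,
      P.p • Q = 0 → σ • Q - Q ∈ N' := by
    intro σ Q hQ
    set R := (toInt P).symm Q with hR
    have hRQ : toInt P R = Q := (toInt P).apply_symm_apply Q
    have hpR : P.p • R = 0 := by
      rw [← nsmul_toInt_eq_zero_iff, hRQ]
      exact hQ
    have hRT : R ∈ Submodule.torsionBy ℤ (P.freyCurve⁄Qb).Point P.p := by
      rw [Submodule.mem_torsionBy_iff, natCast_zsmul]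
      exact hpR
    have h1 := hmemN' _ (hcof σ ⟨R, hRT⟩)
    have h2 : ι (σ • (⟨R, hRT⟩ : Submodule.torsionBy ℤ (P.freyCurve⁄Qb).Point P.p) - ⟨R, hRT⟩) =
        σ • Q - Q := by
      rw [hι]
      show toInt P (σ • R - R) = σ • Q - Q
      rw [map_sub, toInt_smul, hRQ]
    rwa [h2] at h1
  have key := BaseCan4.canonical_of_cofixed P.freyCurveInt (Δ_ne_zero P) hℓ P.pp (coprime_six P) hℓp
    ((dvd_Δ_iff P hℓ).mpr hmult) (not_dvd_c₄ P hℓ hmult) hsmall N' htorsN' hcardN' hstN' hcofN' A hA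
  intro x hx
  exact key _ (hmemN' x hx)

end Fermat.Agent.MS.GLUE.FreyBase4
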