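/-
Programme MS (S12), area GLUE (helper4): **the refined Frobenius count at a prime of singular reduction.**

`A` a valuation subring of a field `L` with residue characteristic `ℓ`, `W` a Weierstrass curve over `L`
with `A`-integral coefficients whose reductions lie in the prime field, `(x₀, y₀)` an integral point of
`W` reducing to a singular point of the reduction.  A set `S` of `n`-torsion points (`n` a unit of
`A`) with nonsingular reduction whose coordinates satisfy `x^ℓ ≡ x`, `y^ℓ ≡ y` (e.g. the points fixed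
by a Frobenius element) has at most `2ℓ - 1` elements (`finite_ncard_le_node`).

Ingredients: the singular point of a Weierstrass cubic is unique (`sing_unique`), hence fixed by the
Frobenius of the residue field (`sing_frob`); the vertical line through the singular point meets the
curve only there (`sing_vertical`).
-/
import Mathlib
import Fermat.Agent.MS.END.FrobCount8

set_option autoImplicit false
set_option linter.unusedSectionVars false
set_option linter.unusedVariables false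
set_option linter.style.longLine false

open WeierstrassCurve WeierstrassCurve.Affine Polynomial

namespace Fermat.Agent.MS.GLUE.NodeCount4

open Fermat.Agent.S05 Fermat.Agent.S13.Closeness Fermat.Agent.MS.END.FrobCount8

/-! ### the singular point of a Weierstrass cubic -/

section Sing

variable {k : Type*} [Field k] (a₁ a₂ a₃ a₄ a₆ : k)

/-- `(x, y)` is a singular point of `y² + a₁xy + a₃y = x³ + a₂x² + a₄x + a₆`. -/
def IsSing (x y : k) : Prop :=
  y ^ 2 + a₁ * x * y + a₃ * y = x ^ 3 + a₂ * x ^ 2 + a₄ * x + a₆ ∧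
    a₁ * y - 3 * x ^ 2 - 2 * a₂ * x - a₄ = 0 ∧ 2 * y + a₁ * x + a₃ = 0

variable {a₁ a₂ a₃ a₄ a₆}

/-- **the singular point is unique** (`x`-coordinate). -/
theorem sing_unique {x₀ y₀ x₁ y₁ : k} (h0 : IsSing a₁ a₂ a₃ a₄ a₆ x₀ y₀)
    (h1 : IsSing a₁ a₂ a₃ a₄ a₆ x₁ y₁) : x₁ = x₀ := by
  obtain ⟨e0, X0, Y0⟩ := h0
  obtain ⟨e1, X1, Y1⟩ := h1
  have h3 : (x₁ - x₀) ^ 3 = 0 := by
    linear_combination 2 * e1 - 2 * e0 - (x₁ - x₀) * X0 - (y₁ - y₀) * Y0 - (y₁ - y₀) * Y1 -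
      (x₁ - x₀) * X1
  exact sub_eq_zero.mp (pow_eq_zero_iff (by norm_num) |>.mp h3)

/-- the vertical line through the singular point meets the curve only there. -/
theorem sing_vertical {x₀ y₀ y : k} (h0 : IsSing a₁ a₂ a₃ a₄ a₆ x₀ y₀)
    (e : y ^ 2 + a₁ * x₀ * y + a₃ * y = x₀ ^ 3 + a₂ * x₀ ^ 2 + a₄ * x₀ + a₆) : y = y₀ := by
  obtain ⟨e0, X0, Y0⟩ := h0
  have h2 : (y - y₀) ^ 2 = 0 := by
    linear_combination e - e0 - (y - y₀) * Y0
  exact sub_eq_zero.mp (pow_eq_zero_iff (by norm_num) |>.mp h2)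

/-- **the singular point is fixed by Frobenius** when the coefficients are. -/
theorem sing_frob {ℓ : ℕ} [hℓ : Fact ℓ.Prime] [CharP k ℓ] (h1 : a₁ ^ ℓ = a₁) (h2 : a₂ ^ ℓ = a₂)
    (h3 : a₃ ^ ℓ = a₃) (h4 : a₄ ^ ℓ = a₄) (h6 : a₆ ^ ℓ = a₆) {x₀ y₀ : k}
    (h0 : IsSing a₁ a₂ a₃ a₄ a₆ x₀ y₀) : x₀ ^ ℓ = x₀ := by
  refine sing_unique (y₁ := y₀ ^ ℓ) h0 ?_
  obtain ⟨e0, X0, Y0⟩ := h0
  have f1 := congrArg (frobenius k ℓ) e0
  have f2 := congrArg (frobenius k ℓ) X0
  have f3 := congrArg (frobenius k ℓ) Y0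
  simp only [map_add, map_sub, map_mul, map_pow, map_zero, map_ofNat] at f1 f2 f3
  simp only [frobenius_def] at f1 f2 f3
  rw [h1, h2, h3, h4, h6] at f1
  rw [h1, h2, h4] at f2
  rw [h1, h3] at f3
  refine ⟨?_, ?_, ?_⟩
  · linear_combination f1
  · linear_combination f2
  · linear_combination f3

end Sing

/-! ### counting in the residue field, away from the singular point -/

section Count

variable {k : Type*} [Field k] [DecidableEq k]

/-- the affine points `(s, t)` of the cubic with `s^ℓ = s`, `s ≠ s₀`. -/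
noncomputable def affFinNode (a₁ a₂ a₃ a₄ a₆ s₀ : k) (ℓ : ℕ) : Finset (k × k) :=
  ((frobRoots k ℓ).erase s₀).biUnion fun s =>
    (quadRoots (a₁ * s + a₃) (s ^ 3 + a₂ * s ^ 2 + a₄ * s + a₆)).image fun t => (s, t)

theorem mem_affFinNode {a₁ a₂ a₃ a₄ a₆ s₀ : k} {ℓ : ℕ} (hℓ : 2 ≤ ℓ) {s t : k} (hs : s ^ ℓ = s)
    (hne : s ≠ s₀)
    (hst : t ^ 2 + a₁ * s * t + a₃ * t = s ^ 3 + a₂ * s ^ 2 + a₄ * s + a₆) :
    (s, t) ∈ affFinNode a₁ a₂ a₃ a₄ a₆ s₀ ℓ := by
  unfold affFinNode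
  rw [Finset.mem_biUnion]
  refine ⟨s, Finset.mem_erase.2 ⟨hne, (mem_frobRoots hℓ).2 hs⟩,
    Finset.mem_image.2 ⟨t, mem_quadRoots.2 ?_, rfl⟩⟩
  rw [← hst]
  ring

theorem card_affFinNode_le (a₁ a₂ a₃ a₄ a₆ : k) {s₀ : k} {ℓ : ℕ} (hℓ : 2 ≤ ℓ) (hs₀ : s₀ ^ ℓ = s₀) :
    (affFinNode a₁ a₂ a₃ a₄ a₆ s₀ ℓ).card ≤ 2 * (ℓ - 1) := by
  unfold affFinNode
  refine Finset.card_biUnion_le.trans ?_
  have hcard : ((frobRoots k ℓ).erase s₀).card ≤ ℓ - 1 := by
    rw [Finset.card_erase_of_mem ((mem_frobRoots hℓ).2 hs₀)]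
    exact Nat.sub_le_sub_right (card_frobRoots_le hℓ) 1
  calc ∑ s ∈ (frobRoots k ℓ).erase s₀,
        ((quadRoots (a₁ * s + a₃) (s ^ 3 + a₂ * s ^ 2 + a₄ * s + a₆)).image fun t => (s, t)).card
      ≤ ∑ _s ∈ (frobRoots k ℓ).erase s₀, 2 :=
        Finset.sum_le_sum fun s _ => Finset.card_image_le.trans (card_quadRoots_le _ _)
    _ = ((frobRoots k ℓ).erase s₀).card * 2 := by rw [Finset.sum_const, smul_eq_mul]
    _ ≤ (ℓ - 1) * 2 := Nat.mul_le_mul_right 2 hcard
    _ = 2 * (ℓ - 1) := Nat.mul_comm _ _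

/-- the possible reductions: `none` (the point at infinity) or an affine point away from `s₀`. -/
noncomputable def redFinNode (a₁ a₂ a₃ a₄ a₆ s₀ : k) (ℓ : ℕ) : Finset (Option (k × k)) :=
  insert none ((affFinNode a₁ a₂ a₃ a₄ a₆ s₀ ℓ).image some)

theorem card_redFinNode_le (a₁ a₂ a₃ a₄ a₆ : k) {s₀ : k} {ℓ : ℕ} (hℓ : 2 ≤ ℓ) (hs₀ : s₀ ^ ℓ = s₀) :
    (redFinNode a₁ a₂ a₃ a₄ a₆ s₀ ℓ).card ≤ 2 * ℓ - 1 := by
  unfold redFinNode
  refine (Finset.card_insert_le _ _).trans ?_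
  have := Finset.card_image_le (s := affFinNode a₁ a₂ a₃ a₄ a₆ s₀ ℓ) (f := some)
  have h2 := card_affFinNode_le a₁ a₂ a₃ a₄ a₆ hℓ hs₀
  omega

end Count

/-! ### the count -/

section Red

variable {L : Type*} [Field L] [DecidableEq L] {A : ValuationSubring L} {W : Affine L}

theorem resL_sub {x y : L} (hx : x ∈ A) (hy : y ∈ A) : resL A (x - y) = resL A x - resL A y := by
  rw [resL_of_mem A hx, resL_of_mem A hy, resL_of_mem A (sub_mem hx hy), ← map_sub]
  rfl

theorem resL_ofNat_mul (n : ℕ) {x : L} (hx : x ∈ A) : resL A ((n : L) * x) = (n : ResF A) * resL A x := by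
  have hn : (n : L) ∈ A := natCast_mem A n
  rw [resL_mul A hn hx, resL_of_mem A hn]
  have : (⟨(n : L), hn⟩ : ↥A) = ((n : ℕ) : ↥A) := Subtype.ext (by simp)
  rw [this, map_natCast]

theorem resL_eq_zero_iff {x : L} (hx : x ∈ A) : resL A x = 0 ↔ A.valuation x < 1 := by
  have h0 : (0 : L) ∈ A := A.zero_mem
  have : resL A (0 : L) = 0 := by
    rw [resL_of_mem A h0]
    exact map_zero _
  rw [← this, resL_eq_iff A hx h0, sub_zero]

section Partial

variable (hW : Kernel.IntegralCoeffs A.valuation W)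

include hW in
/-- the reduction of the equation of an integral point. -/
theorem resL_equation {x y : L} (mx : x ∈ A) (my : y ∈ A) (h : W.Equation x y) :
    resL A y ^ 2 + resL A W.a₁ * resL A x * resL A y + resL A W.a₃ * resL A y =
      resL A x ^ 3 + resL A W.a₂ * resL A x ^ 2 + resL A W.a₄ * resL A x + resL A W.a₆ := by
  obtain ⟨h1, h2, h3, h4, h6⟩ := hW
  have m1 : W.a₁ ∈ A := (A.valuation_le_one_iff _).1 h1
  have m2 : W.a₂ ∈ A := (A.valuation_le_one_iff _).1 h2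
  have m3 : W.a₃ ∈ A := (A.valuation_le_one_iff _).1 h3
  have m4 : W.a₄ ∈ A := (A.valuation_le_one_iff _).1 h4
  have m6 : W.a₆ ∈ A := (A.valuation_le_one_iff _).1 h6
  have heq := (equation_iff x y).1 h
  have e1 : resL A (y ^ 2 + W.a₁ * x * y + W.a₃ * y) =
      resL A y ^ 2 + resL A W.a₁ * resL A x * resL A y + resL A W.a₃ * resL A y := by
    rw [resL_add A (A.add_mem _ _ (pow_mem my 2) (A.mul_mem _ _ (A.mul_mem _ _ m1 mx) my))
      (A.mul_mem _ _ m3 my), resL_add A (pow_mem my 2) (A.mul_mem _ _ (A.mul_mem _ _ m1 mx) my),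
      resL_pow A my, resL_mul A (A.mul_mem _ _ m1 mx) my, resL_mul A m1 mx, resL_mul A m3 my]
  have e2 : resL A (x ^ 3 + W.a₂ * x ^ 2 + W.a₄ * x + W.a₆) =
      resL A x ^ 3 + resL A W.a₂ * resL A x ^ 2 + resL A W.a₄ * resL A x + resL A W.a₆ := by
    rw [resL_add A (A.add_mem _ _ (A.add_mem _ _ (pow_mem mx 3) (A.mul_mem _ _ m2 (pow_mem mx 2)))
        (A.mul_mem _ _ m4 mx)) m6,
      resL_add A (A.add_mem _ _ (pow_mem mx 3) (A.mul_mem _ _ m2 (pow_mem mx 2)))
        (A.mul_mem _ _ m4 mx),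
      resL_add A (pow_mem mx 3) (A.mul_mem _ _ m2 (pow_mem mx 2)), resL_pow A mx,
      resL_mul A m2 (pow_mem mx 2), resL_pow A mx, resL_mul A m4 mx]
  rw [← e1, ← e2, heq]

include hW in
theorem mem_WX {x y : L} (mx : x ∈ A) (my : y ∈ A) : WX W x y ∈ A := by
  obtain ⟨h1, h2, h3, h4, h6⟩ := hW
  have m1 : W.a₁ ∈ A := (A.valuation_le_one_iff _).1 h1
  have m2 : W.a₂ ∈ A := (A.valuation_le_one_iff _).1 h2
  have m4 : W.a₄ ∈ A := (A.valuation_le_one_iff _).1 h4
  have n3 : ((3 : ℕ) : L) = 3 := by norm_num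
  have n2 : ((2 : ℕ) : L) = 2 := by norm_num
  unfold WX
  refine sub_mem (sub_mem (sub_mem (A.mul_mem _ _ m1 my) ?_) ?_) m4
  · rw [← n3]
    exact A.mul_mem _ _ (natCast_mem A 3) (pow_mem mx 2)
  · rw [← n2]
    exact A.mul_mem _ _ (A.mul_mem _ _ (natCast_mem A 2) m2) mx

include hW in
theorem mem_WY {x y : L} (mx : x ∈ A) (my : y ∈ A) : WY W x y ∈ A := by
  obtain ⟨h1, h2, h3, h4, h6⟩ := hW
  have m1 : W.a₁ ∈ A := (A.valuation_le_one_iff _).1 h1
  have m3 : W.a₃ ∈ A := (A.valuation_le_one_iff _).1 h3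
  have n2 : ((2 : ℕ) : L) = 2 := by norm_num
  unfold WY
  refine A.add_mem _ _ (A.add_mem _ _ ?_ (A.mul_mem _ _ m1 mx)) m3
  rw [← n2]
  exact A.mul_mem _ _ (natCast_mem A 2) my

include hW in
/-- the reduction of `∂W/∂x`. -/
theorem resL_WX {x y : L} (mx : x ∈ A) (my : y ∈ A) : resL A (WX W x y) =
    resL A W.a₁ * resL A y - 3 * resL A x ^ 2 - 2 * resL A W.a₂ * resL A x - resL A W.a₄ := by
  obtain ⟨h1, h2, h3, h4, h6⟩ := hW
  have m1 : W.a₁ ∈ A := (A.valuation_le_one_iff _).1 h1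
  have m2 : W.a₂ ∈ A := (A.valuation_le_one_iff _).1 h2
  have m4 : W.a₄ ∈ A := (A.valuation_le_one_iff _).1 h4
  have n3 : ((3 : ℕ) : L) = 3 := by norm_num
  have n2 : ((2 : ℕ) : L) = 2 := by norm_num
  have m3x : (3 : L) * x ^ 2 ∈ A := by
    rw [← n3]
    exact A.mul_mem _ _ (natCast_mem A 3) (pow_mem mx 2)
  have m2x : (2 : L) * W.a₂ * x ∈ A := by
    rw [← n2]
    exact A.mul_mem _ _ (A.mul_mem _ _ (natCast_mem A 2) m2) mx
  unfold WX
  rw [resL_sub (sub_mem (sub_mem (A.mul_mem _ _ m1 my) m3x) m2x) m4,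
    resL_sub (sub_mem (A.mul_mem _ _ m1 my) m3x) m2x,
    resL_sub (A.mul_mem _ _ m1 my) m3x, resL_mul A m1 my]
  have e3 : resL A ((3 : L) * x ^ 2) = 3 * resL A x ^ 2 := by
    rw [← n3, resL_ofNat_mul 3 (pow_mem mx 2), resL_pow A mx]
    norm_num
  have e2 : resL A ((2 : L) * W.a₂ * x) = 2 * resL A W.a₂ * resL A x := by
    rw [mul_assoc, ← n2, resL_ofNat_mul 2 (A.mul_mem _ _ m2 mx), resL_mul A m2 mx]
    norm_num
    ring
  rw [e3, e2]

include hW in
/-- the reduction of `∂W/∂y`. -/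
theorem resL_WY {x y : L} (mx : x ∈ A) (my : y ∈ A) : resL A (WY W x y) =
    2 * resL A y + resL A W.a₁ * resL A x + resL A W.a₃ := by
  obtain ⟨h1, h2, h3, h4, h6⟩ := hW
  have m1 : W.a₁ ∈ A := (A.valuation_le_one_iff _).1 h1
  have m3 : W.a₃ ∈ A := (A.valuation_le_one_iff _).1 h3
  have n2 : ((2 : ℕ) : L) = 2 := by norm_num
  have m2y : (2 : L) * y ∈ A := by
    rw [← n2]
    exact A.mul_mem _ _ (natCast_mem A 2) my
  unfold WY
  rw [resL_add A (A.add_mem _ _ m2y (A.mul_mem _ _ m1 mx)) m3,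
    resL_add A m2y (A.mul_mem _ _ m1 mx), resL_mul A m1 mx]
  have e2 : resL A ((2 : L) * y) = 2 * resL A y := by
    rw [← n2, resL_ofNat_mul 2 my]
    norm_num
  rw [e2]

end Partial

/-- **the refined count**: a set of `n`-torsion points (`n` a unit of `A`) with nonsingular reduction
whose coordinates satisfy `x^ℓ ≡ x`, `y^ℓ ≡ y` modulo the maximal ideal has at most `2ℓ - 1` elements,
when the reduction of `W` has coefficients in the prime field `𝔽_ℓ` and a singular point. -/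
theorem finite_ncard_le_node (hW : Kernel.IntegralCoeffs A.valuation W)
    {n : ℕ} (hn : A.valuation (n : L) = 1) {ℓ : ℕ} (hℓ : ℓ.Prime) (hℓA : A.valuation (ℓ : L) < 1)
    (hc₁ : A.valuation (W.a₁ ^ ℓ - W.a₁) < 1) (hc₂ : A.valuation (W.a₂ ^ ℓ - W.a₂) < 1)
    (hc₃ : A.valuation (W.a₃ ^ ℓ - W.a₃) < 1) (hc₄ : A.valuation (W.a₄ ^ ℓ - W.a₄) < 1)
    (hc₆ : A.valuation (W.a₆ ^ ℓ - W.a₆) < 1)
    {x₀ y₀ : L} (hx₀ : x₀ ∈ A) (hy₀ : y₀ ∈ A) (h₀ : W.Equation x₀ y₀)
    (hsX : A.valuation (WX W x₀ y₀) < 1) (hsY : A.valuation (WY W x₀ y₀) < 1)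
    (S : Set W.Point) (hS : ∀ Q ∈ S, n • Q = 0)
    (hns : ∀ (x y : L) (h : W.Nonsingular x y), Point.some x y h ∈ S →
      A.valuation (WX W x y) = 1 ∨ A.valuation (WY W x y) = 1)
    (hfrob : ∀ (x y : L) (h : W.Nonsingular x y), Point.some x y h ∈ S →
      A.valuation (x ^ ℓ - x) < 1 ∧ A.valuation (y ^ ℓ - y) < 1) :
    S.Finite ∧ S.ncard ≤ 2 * ℓ - 1 := by
  classical
  have hℓ2 : 2 ≤ ℓ := hℓ.two_le
  obtain ⟨h1, h2, h3, h4, h6⟩ := hW
  have hW' : Kernel.IntegralCoeffs A.valuation W := ⟨h1, h2, h3, h4, h6⟩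
  have m1 : W.a₁ ∈ A := (A.valuation_le_one_iff _).1 h1
  have m2 : W.a₂ ∈ A := (A.valuation_le_one_iff _).1 h2
  have m3 : W.a₃ ∈ A := (A.valuation_le_one_iff _).1 h3
  have m4 : W.a₄ ∈ A := (A.valuation_le_one_iff _).1 h4
  have m6 : W.a₆ ∈ A := (A.valuation_le_one_iff _).1 h6
  have hred : ∀ x y : L, x ∈ A → y ∈ A → W.Equation x y →
      resL A y ^ 2 + resL A W.a₁ * resL A x * resL A y + resL A W.a₃ * resL A y =
        resL A x ^ 3 + resL A W.a₂ * resL A x ^ 2 + resL A W.a₄ * resL A x + resL A W.a₆ :=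
    fun x y mx my h => resL_equation hW' mx my h
  have hredX : ∀ x y : L, x ∈ A → y ∈ A → resL A (WX W x y) =
      resL A W.a₁ * resL A y - 3 * resL A x ^ 2 - 2 * resL A W.a₂ * resL A x - resL A W.a₄ :=
    fun x y mx my => resL_WX hW' mx my
  have hredY : ∀ x y : L, x ∈ A → y ∈ A → resL A (WY W x y) =
      2 * resL A y + resL A W.a₁ * resL A x + resL A W.a₃ :=
    fun x y mx my => resL_WY hW' mx my
  have memX : ∀ x y : L, x ∈ A → y ∈ A → WX W x y ∈ A := fun x y mx my => mem_WX hW' mx my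
  have memY : ∀ x y : L, x ∈ A → y ∈ A → WY W x y ∈ A := fun x y mx my => mem_WY hW' mx my
  -- the singular point of the reduction
  have hsing : IsSing (resL A W.a₁) (resL A W.a₂) (resL A W.a₃) (resL A W.a₄) (resL A W.a₆)
      (resL A x₀) (resL A y₀) := by
    refine ⟨hred x₀ y₀ hx₀ hy₀ h₀, ?_, ?_⟩
    · rw [← hredX x₀ y₀ hx₀ hy₀, resL_eq_zero_iff (memX x₀ y₀ hx₀ hy₀)]
      exact hsX
    · rw [← hredY x₀ y₀ hx₀ hy₀, resL_eq_zero_iff (memY x₀ y₀ hx₀ hy₀)]
      exact hsY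
  -- the residue characteristic
  have hchar : CharP (ResF A) ℓ := by
    rw [CharP.charP_iff_prime_eq_zero hℓ]
    have hℓm : ((ℓ : ℕ) : L) ∈ A := natCast_mem A ℓ
    have h0 := (resL_eq_zero_iff hℓm).2 hℓA
    rw [resL_of_mem A hℓm] at h0
    have : (⟨(ℓ : L), hℓm⟩ : ↥A) = ((ℓ : ℕ) : ↥A) := Subtype.ext (by simp)
    rw [this, map_natCast] at h0
    exact h0
  have hfact : Fact ℓ.Prime := ⟨hℓ⟩
  have hcoef : ∀ a : L, a ∈ A → A.valuation (a ^ ℓ - a) < 1 → resL A a ^ ℓ = resL A a := by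
    intro a ma h
    rw [← resL_pow A ma, resL_eq_iff A (pow_mem ma ℓ) ma]
    exact h
  have hs₀ : resL A x₀ ^ ℓ = resL A x₀ :=
    sing_frob (hcoef _ m1 hc₁) (hcoef _ m2 hc₂) (hcoef _ m3 hc₃) (hcoef _ m4 hc₄) (hcoef _ m6 hc₆)
      hsing
  set F := redFinNode (resL A W.a₁) (resL A W.a₂) (resL A W.a₃) (resL A W.a₄) (resL A W.a₆)
    (resL A x₀) ℓ with hF
  -- integrality of the torsion points
  have hint : ∀ (x y : L) (h : W.Nonsingular x y), Point.some x y h ∈ S → x ∈ A ∧ y ∈ A := by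
    intro x y h hQ
    have hx : A.valuation x ≤ 1 := Kernel.x_integral_of_nsmul_eq_zero hW' h hn (hS _ hQ)
    have hy : A.valuation y ≤ 1 := vy_le_one hW' h.1 hx
    exact ⟨(A.valuation_le_one_iff _).1 hx, (A.valuation_le_one_iff _).1 hy⟩
  have hmaps : Set.MapsTo (redPt A W) S (F : Set (Option (ResF A × ResF A))) := by
    intro Q hQ
    rcases Q with _ | ⟨x, y, h⟩
    · exact Finset.mem_insert_self _ _
    · obtain ⟨mx, my⟩ := hint x y h hQ
      obtain ⟨fx, fy⟩ := hfrob x y h hQ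
      show redPt A W (Point.some x y h) ∈ F
      rw [redPt_some, hF]
      unfold redFinNode
      refine Finset.mem_insert_of_mem (Finset.mem_image.2 ⟨_, ?_, rfl⟩)
      refine mem_affFinNode hℓ2 ?_ ?_ (hred x y mx my h.1)
      · rw [← resL_pow A mx, resL_eq_iff A (pow_mem mx ℓ) mx]
        exact fx
      · -- the reduction is not above the singular point
        intro hxx
        have hy' : resL A y = resL A y₀ := by
          refine sing_vertical hsing ?_
          have := hred x y mx my h.1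
          rw [hxx] at this
          exact this
        -- then both partial derivatives reduce to zero
        have hX0 : A.valuation (WX W x y) < 1 := by
          rw [← resL_eq_zero_iff (memX x y mx my), hredX x y mx my, hxx, hy']
          exact hsing.2.1
        have hY0 : A.valuation (WY W x y) < 1 := by
          rw [← resL_eq_zero_iff (memY x y mx my), hredY x y mx my, hxx, hy']
          exact hsing.2.2
        rcases hns x y h hQ with h1' | h1'
        · rw [h1'] at hX0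
          exact lt_irrefl _ hX0
        · rw [h1'] at hY0
          exact lt_irrefl _ hY0
  have hinj : Set.InjOn (redPt A W) S := by
    intro Q hQ Q' hQ' hQQ'
    rcases Q with _ | ⟨x, y, h⟩ <;> rcases Q' with _ | ⟨x', y', h'⟩
    · rfl
    · rw [redPt_some] at hQQ'
      exact absurd hQQ' (Option.some_ne_none _).symm
    · rw [redPt_some] at hQQ'
      exact absurd hQQ' (Option.some_ne_none _)
    · obtain ⟨mx, my⟩ := hint x y h hQ
      obtain ⟨mx', my'⟩ := hint x' y' h' hQ'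
      rw [redPt_some, redPt_some, Option.some.injEq, Prod.mk.injEq] at hQQ'
      have hxx : A.valuation (x' - x) < 1 := (resL_eq_iff A mx' mx).1 hQQ'.1.symm
      have hyy : A.valuation (y' - y) < 1 := (resL_eq_iff A my' my).1 hQQ'.2.symm
      obtain ⟨ex, ey⟩ := eq_of_close_of_nsmul_eq_zero hW' hn h h' (hS _ hQ) (hS _ hQ') hxx hyy
        (hns x y h hQ)
      subst ex
      subst ey
      rfl
  have hfin : S.Finite := Set.Finite.of_injOn hmaps hinj (Finset.finite_toSet F)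
  refine ⟨hfin, ?_⟩
  calc S.ncard ≤ (F : Set (Option (ResF A × ResF A))).ncard :=
        Set.ncard_le_ncard_of_injOn (redPt A W) hmaps hinj (Finset.finite_toSet F)
    _ = F.card := Set.ncard_coe_finset F
    _ ≤ 2 * ℓ - 1 := card_redFinNode_le _ _ _ _ _ hℓ2 hs₀

end Red

end Fermat.Agent.MS.GLUE.NodeCount4
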