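/-
Programme MS (S12, Mazur), chapter GLUE, file Wrap3 (helper3): **three named inputs of
`MS/STEP/Assemble8.s12_of_inputs` for the Frey curve**, as literal instances of the Props of
`Assemble8`:

* `muLineProp P : MuLineProp P.freyCurve P.p`          (helper6, `MS/GLOB/CycloLine6`);
* `splitProp P hline : SplitProp P.freyCurve P.p`       (helper2, `MS/LOCP/SplitAtP2.splitAt`);
* `thetaPProp P hline : ThetaPProp P.freyCurve P.p`     (helper2, `MS/LOCP/SplitAtP2.thetaLocal_at_p`);
* `ramAtP P : SplitAtP2.RamAtP P`                       (helper6, `MS/GLOB/TameCyc6`).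
-/
import Mathlib
import Fermat.Agent.MS.STEP.Assemble8
import Fermat.Agent.MS.GLOB.CycloLine6
import Fermat.Agent.MS.LOCP.SplitAtP2

set_option autoImplicit false
set_option linter.unusedSectionVars false
set_option linter.unusedVariables false
set_option linter.style.longLine false

open WeierstrassCurve WeierstrassCurve.Affine WeierstrassCurve.Affine.Point

namespace Fermat.Agent.MS.GLUE.Wrap3

open Fermat.Agent.MS.STEP.StepAlg8 Fermat.Agent.MS.STEP.CofStep8 Fermat.Agent.MS.STEP.Assemble8
open Fermat.Agent.MS.LOCP.SplitAtP2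

local notation "Qbar" => AlgebraicClosure ℚ
local notation "GQ" => (AlgebraicClosure ℚ ≃ₐ[ℚ] AlgebraicClosure ℚ)

variable (P : FreyPackage)

/-- **(R)** the mod-`p` cyclotomic character is ramified at every place over `p`. -/
theorem ramAtP : RamAtP P := fun A hA =>
  Fermat.Agent.MS.GLOB.TameCyc6.exists_inertia_cycloExp_ne_one
    (by have := P.hp5; omega) hA

/-- **(G2)** for the Frey curve. -/
theorem muLineProp : MuLineProp P.freyCurve P.p := by
  intro N hstab hbot htop hcof σ x hx
  have h := Fermat.Agent.MS.GLOB.CycloLine6.cofixed_line_cyclo hstab hbot htop hcof σ hx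
  rw [Nat.cast_smul_eq_nsmul] at h
  have h2 := congrArg (fun y : Submodule.torsionBy ℤ (P.freyCurve⁄Qbar).Point P.p =>
    (y : (P.freyCurve⁄Qbar).Point)) h
  simp only [Submodule.coe_smul_of_tower] at h2
  exact h2

/-- **(L2)** for the Frey curve. -/
theorem splitProp (hline : HasGaloisStableCofixedLine (K := Qbar) ℚ P.freyCurve P.p) :
    SplitProp P.freyCurve P.p :=
  fun k D hk => splitAt D hk (ramAtP P) (hasLine_of_cofixed hline)

/-- **(L3) at `p`** for the Frey curve. -/
theorem thetaPProp (hline : HasGaloisStableCofixedLine (K := Qbar) ℚ P.freyCurve P.p) :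
    ThetaPProp P.freyCurve P.p :=
  fun k D hk C' hC' hc A hA =>
    thetaLocal_at_p D hk (ramAtP P) (hasLine_of_cofixed hline) hC' hc hA

end Fermat.Agent.MS.GLUE.Wrap3
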